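import Fermat.Agent.MD.Res
import Fermat.Agent.TW.NoOcc2
import Fermat.Agent.FlT.Faith
import Fermat.Agent.LevelRaise.Lift
import Fermat.Agent.CL.Lift

/-!
# Modularity of the residual representation and its occurrence in the cohomology
-/

set_option autoImplicit false
set_option linter.unusedSectionVars false
set_option linter.style.haveILetI false

open IsLocalRing
open scoped TensorProduct
open Fermat.Agent.GalRep Fermat.Agent.Sel Fermat.Agent.TW Fermat.Agent.ALCoh Fermat.Agent.Places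
open ModularFormClass

namespace Fermat.Agent.MD

noncomputable section

local notation "Ω" => AlgebraicClosure ℚ

theorem bc_int {k L : Type} [Field k] [AddCommGroup L] (n : ℤ) (z : k ⊗[ℤ] L) :
    ((n : Module.End ℤ L).baseChange k) z = (n : k) • z := by
  induction z using TensorProduct.induction_on with
  | zero => rw [map_zero, smul_zero]
  | tmul a x =>
    rw [LinearMap.baseChange_tmul, Module.End.intCast_apply, TensorProduct.tmul_smul,
      Int.cast_smul_eq_zsmul]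
  | add x y hx hy => rw [map_add, hx, hy, smul_add]

section one

variable {O : Type} [CommRing O] [IsLocalRing O] [IsNoetherianRing O] [Module.Flat ℤ O]
  {P : FreyPackage} [hp : Fact P.p.Prime] (κ : ZMod P.p →+* ResidueField O)

/-- a modular residual system occurs in the cohomology (large exceptional sets) -/
theorem occ_aux {W : WeierstrassCurve ℤ} {M N : ℕ} [NeZero N] (hM : M ∣ N)
    {f : CuspForm (CongruenceSubgroup.Gamma0 M) 2} (hf : f.IsNormalizedEigenform)
    {𝔪 : Ideal (integralClosure ℤ ℂ)} (h𝔪 : 𝔪.IsMaximal) (hp𝔪 : (P.p : integralClosure ℤ ℂ) ∈ 𝔪)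
    (hcong : ∀ ℓ : ℕ, ℓ.Prime → W.IsGoodPrimeFor ℓ → ¬ ℓ ∣ M → ℓ ≠ P.p →
      ∃ a : integralClosure ℤ ℂ, (a : ℂ) = qCoeff f ℓ ∧
        a - ((W.apOfModel ℓ : ℤ) : integralClosure ℤ ℂ) ∈ 𝔪)
    {S : Set ℕ} (hNS : ∀ l, l.Prime → l ∣ N → l ∈ S) (hpS : P.p ∈ S)
    (hgood : ∀ l, l.Prime → l ∉ S → W.IsGoodPrimeFor l)
    {s : TS O S} (hs : phiG O hNS s = 0) :
    thS (fun l => κ (W.apOfModel l : ℤ)) S s = 0 := by
  obtain ⟨g, hg, hgf⟩ := CL.exists_at_level hM hf
  -- the common extension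
  letI : Field (integralClosure ℤ ℂ ⧸ 𝔪) := Ideal.Quotient.field 𝔪
  haveI : CharP (integralClosure ℤ ℂ ⧸ 𝔪) P.p := by
    rw [CharP.charP_iff_prime_eq_zero hp.out, ← map_natCast (Ideal.Quotient.mk 𝔪)]
    exact Ideal.Quotient.eq_zero_iff_mem.2 hp𝔪
  letI : Algebra (ZMod P.p) (integralClosure ℤ ℂ ⧸ 𝔪) := ZMod.algebra _ P.p
  letI : Algebra (ZMod P.p) (ResidueField O) := κ.toAlgebra
  let j : ResidueField O →+* (ResidueField O ⊗[ZMod P.p] (integralClosure ℤ ℂ ⧸ 𝔪)) :=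
    Algebra.TensorProduct.includeLeftRingHom
  let j₁ : (integralClosure ℤ ℂ ⧸ 𝔪) →+*
      (ResidueField O ⊗[ZMod P.p] (integralClosure ℤ ℂ ⧸ 𝔪)) :=
    (Algebra.TensorProduct.includeRight : _ →ₐ[ZMod P.p] _).toRingHom
  have hj : Function.Injective j := Algebra.TensorProduct.includeLeft_injective
    (S := ZMod P.p) (algebraMap (ZMod P.p) (integralClosure ℤ ℂ ⧸ 𝔪)).injective
  letI : Algebra O (ResidueField O ⊗[ZMod P.p] (integralClosure ℤ ℂ ⧸ 𝔪)) :=
    (j.comp (algebraMap O (ResidueField O))).toAlgebra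
  let π : CuspForm.heckeAlgebra N 2 S →+*
      (ResidueField O ⊗[ZMod P.p] (integralClosure ℤ ℂ ⧸ 𝔪)) :=
    j₁.comp ((Ideal.Quotient.mk 𝔪).comp (Eigen.eigenCharInt hg S))
  haveI : Fact ((-1 : (ZMod N)ˣ) ∈ (⊤ : Subgroup (ZMod N)ˣ)) := ⟨trivial⟩
  have hsH : phiH O (⊤ : Subgroup (ZMod N)ˣ) hNS s = 0 := by
    refine LinearMap.ext fun x => ?_
    have h1 : Fintype.card (DG N (⊤ : Subgroup (ZMod N)ˣ)) = 1 :=
      Fintype.card_eq_one_iff.2 ⟨1, fun y => by
        obtain ⟨y, rfl⟩ := QuotientGroup.mk_surjective y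
        exact (QuotientGroup.eq_one_iff y).2 trivial⟩
    have h2 := resO_trO O (N := N) (H := (⊤ : Subgroup (ZMod N)ˣ)) x
    rw [Fintype.sum_eq_single (1 : DG N (⊤ : Subgroup (ZMod N)ˣ)) (fun y hy => by
      exfalso
      apply hy
      obtain ⟨z, hz⟩ := Fintype.card_eq_one_iff.1 h1
      rw [hz y, hz 1]), map_one, Module.End.one_apply] at h2
    rw [← h2, ← resO_phi, hs, LinearMap.zero_apply, map_zero, LinearMap.zero_apply]
  have h1 := FlT.aeval_eq_zero (O := O) hNS π hsH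
  -- the values at the generators
  have h2 : ∀ i : IS S, π (CuspForm.heckeAlgebra.T i.2.1 (i.not_dvd hNS) i.2.2) =
      j (κ (W.apOfModel i.1 : ℤ)) := by
    intro i
    have hiN := i.not_dvd hNS
    obtain ⟨a, ha, ha'⟩ := hcong i.1 i.2.1 (hgood i.1 i.2.1 i.2.2) (fun hd => hiN (hd.trans hM))
      (fun he => i.2.2 (by rw [he]; exact hpS))
    have e1 : Eigen.eigenCharInt hg S (CuspForm.heckeAlgebra.T i.2.1 hiN i.2.2) = a := by
      apply Subtype.ext
      rw [Eigen.coe_eigenCharInt, Eigen.eigenChar_T, ha, hgf i.1 i.2.1 hiN]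
    change j₁ (Ideal.Quotient.mk 𝔪 (Eigen.eigenCharInt hg S _)) = _
    rw [e1, Ideal.Quotient.eq.2 ha', map_intCast, map_intCast, map_intCast, map_intCast]
  have h3 : (MvPolynomial.aeval (fun i : IS S =>
      π (CuspForm.heckeAlgebra.T i.2.1 (i.not_dvd hNS) i.2.2)) s) =
      j (thS (fun l => κ (W.apOfModel l : ℤ)) S s) := by
    simp only [h2]
    rw [thS]
    let jA : ResidueField O →ₐ[O] (ResidueField O ⊗[ZMod P.p] (integralClosure ℤ ℂ ⧸ 𝔪)) :=
      { j with commutes' := fun _ => rfl }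
    change MvPolynomial.aeval (fun i : IS S => jA (κ (W.apOfModel i.1 : ℤ))) s =
      jA (MvPolynomial.aeval (fun l : IS S => κ (W.apOfModel l.1 : ℤ)) s)
    rw [← AlgHom.comp_apply, MvPolynomial.comp_aeval]
  rw [h3] at h1
  exact hj (by rw [h1, map_zero])

end one

section two

variable {O : Type} [CommRing O] [IsDomain O] [IsLocalRing O] [IsNoetherianRing O]
  [IsAdicComplete (maximalIdeal O) O] [CharZero O] [Module.Flat ℤ O]
  {P : FreyPackage} [hp : Fact P.p.Prime] (hpO : (P.p : O) ∈ maximalIdeal O)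
  (ι : AlgebraicClosure ℚ →+* ℂ) (κ : ZMod P.p →+* ResidueField O)
  {ρ : GQ →* M2 (ZMod P.p)} (h : Res0 P ρ)
  {W : WeierstrassCurve ℤ} (hW : W.IsIntegralModelOf P.freyCurve)

include h hW in
theorem hfrob_S {S : Set ℕ} (hpS : P.p ∈ S) (hgood : ∀ l, l.Prime → l ∉ S → W.IsGoodPrimeFor l)
    (l : ℕ) (hl : l.Prime) (hlS : l ∉ S) (A : ValuationSubring Ω)
    (hA : A.LiesOverPrime l) (τ : GQ) (hτ : A.IsFrobeniusAt τ l) :
    (extk ρ κ τ).trace = (fun l => κ (W.apOfModel l : ℤ)) l ∧ (extk ρ κ τ).det = l :=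
  frob h κ hW hl (hgood l hl hlS) (fun he => hlS (by rw [he]; exact hpS)) hA hτ

include hpO ι h hW in
/-- **(M1)**: a modular residual system occurs in the cohomology -/
theorem occ_of_modular {M N : ℕ} [NeZero N] (hM : M ∣ N) (hmod : P.ModularRepOfLevel M)
    {S : Set ℕ} (hS : S.Finite) (hNS : ∀ l, l.Prime → l ∣ N → l ∈ S) (hpS : P.p ∈ S)
    (hgood : ∀ l, l.Prime → l ∉ S → W.IsGoodPrimeFor l) (s : TS O S)
    (hs : phiG O hNS s = 0) : thS (fun l => κ (W.apOfModel l : ℤ)) S s = 0 := by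
  obtain ⟨f, W', 𝔪, hf, hW', h𝔪, hp𝔪, hcong⟩ := hmod
  by_contra hne
  let S' : Set ℕ := S ∪ {l | ¬ W'.IsGoodPrimeFor l}
  have hSS' : S ⊆ S' := Set.subset_union_left
  have hS' : S'.Finite := hS.union (LevelRaise.good_finite (Δ_ne P hW'))
  have hNS' : ∀ l, l.Prime → l ∣ N → l ∈ S' := fun l hl hlN => hSS' (hNS l hl hlN)
  have hgood' : ∀ l, l.Prime → l ∉ S' → W'.IsGoodPrimeFor l := fun l _ hlS => by
    by_contra hg
    exact hlS (Or.inr hg)
  obtain ⟨s', hs', hs'ne⟩ := exists_no_enlarge hpO ι (isPseudoRep κ ρ) (isLocConst_tr h κ) hSS' hS'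
    hpS (tl := fun l => κ (W.apOfModel l : ℤ)) (hfrob_S κ h hW hpS hgood) hNS hNS' ⟨s, hs, hne⟩
  apply hs'ne
  have h1 := occ_aux κ hM hf h𝔪 hp𝔪 hcong hNS' (hSS' hpS) hgood' hs'
  have h2 : thS (fun l => κ (W.apOfModel l : ℤ)) S' = thS (fun l => κ (W'.apOfModel l : ℤ)) S' := by
    refine MvPolynomial.algHom_ext fun i => ?_
    rw [thS_X, thS_X]
    obtain ⟨A, hA⟩ := exists_liesOverPrime (AlgebraicClosure ℚ) i.2.1
    obtain ⟨Φ, hΦ⟩ := exists_isFrobeniusAt A i.2.1 hA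
    have hip : i.1 ≠ P.p := fun he => i.2.2 (by rw [he]; exact hSS' hpS)
    rw [← (frob h κ hW i.2.1 (hgood i.1 i.2.1 fun hh => i.2.2 (hSS' hh)) hip hA hΦ).1,
      ← (frob h κ hW' i.2.1 (hgood' i.1 i.2.1 i.2.2) hip hA hΦ).1]
  rw [h2]
  exact h1

include hpO ι h hW in
/-- **(M2)**: a residual system occurring in the cohomology is modular -/
theorem modular_of_occ {M : ℕ} [NeZero M] {S : Set ℕ} (hS : S.Finite)
    (hMS : ∀ l, l.Prime → l ∣ M → l ∈ S) (hpS : P.p ∈ S)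
    (hgood : ∀ l, l.Prime → l ∉ S → W.IsGoodPrimeFor l)
    (hocc : ∀ s : TS O S, phiG O hMS s = 0 → thS (fun l => κ (W.apOfModel l : ℤ)) S s = 0) :
    P.ModularRepOfLevel M := by
  haveI := charP_res hpO
  obtain ⟨e, he0, he1, he2, he3⟩ := exists_idem (fun _ : Unit => XG O M)
    (fun _ => phiG O hMS) (thS (fun l => κ (W.apOfModel l : ℤ)) S)
  have he : IsLoc (phiG O hMS) (thS (fun l => κ (W.apOfModel l : ℤ)) S) e :=
    ⟨he1 (), fun a ha => by
      obtain ⟨s', hs'⟩ := he2 a ha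
      exact ⟨s', hs' ()⟩, fun a ha => by
      obtain ⟨n, hn⟩ := he3 a ha
      exact ⟨n, hn ()⟩⟩
  obtain ⟨z, hz0, -, hz⟩ := exists_eig_all hMS (k := ResidueField O)
    (by rw [IsLocalRing.ResidueField.algebraMap_eq]; exact IsLocalRing.residue_surjective)
    hS hpS ι (isPseudoRep κ ρ) (isLocConst_tr h κ) (fun l A hA τ hτ => by
      rw [thS_X]
      exact hfrob_S κ h hW hpS hgood l.1 l.2.1 l.2.2 A hA τ hτ) he
    (fun h0 => one_ne_zero (he0.symm.trans (hocc e h0)))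
  -- the annihilator in the full Hecke algebra
  let T := CuspForm.heckeAlgebra M 2 ∅
  let I : Ideal T :=
    { carrier := {t | ((HeckeHom.actL M ∅ t).baseChange (ResidueField O)) z = 0}
      add_mem' := fun {a b} ha hb => by
        change ((HeckeHom.actL M ∅ (a + b)).baseChange (ResidueField O)) z = 0
        rw [map_add, LinearMap.baseChange_add, LinearMap.add_apply]
        exact (congrArg₂ (· + ·) ha hb).trans (add_zero _)
      zero_mem' := by
        change ((HeckeHom.actL M ∅ 0).baseChange (ResidueField O)) z = 0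
        rw [map_zero, LinearMap.baseChange_zero, LinearMap.zero_apply]
      smul_mem' := fun c a ha => by
        change ((HeckeHom.actL M ∅ (c * a)).baseChange (ResidueField O)) z = 0
        rw [map_mul]
        have h1 : (HeckeHom.actL M ∅ c * HeckeHom.actL M ∅ a).baseChange (ResidueField O) =
          (HeckeHom.actL M ∅ c).baseChange (ResidueField O) ∘ₗ
            (HeckeHom.actL M ∅ a).baseChange (ResidueField O) := LinearMap.baseChange_comp _ _
        rw [h1, LinearMap.comp_apply]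
        exact (congrArg _ ha).trans (map_zero _) }
  have hI : ∀ t : T, t ∈ I ↔ ((HeckeHom.actL M ∅ t).baseChange (ResidueField O)) z = 0 :=
    fun t => Iff.rfl
  have hI1 : I ≠ ⊤ := by
    rw [Ideal.ne_top_iff_one, hI, map_one]
    intro h0
    apply hz0
    exact (LinearMap.congr_fun (LinearMap.baseChange_id (R := ℤ) (A := ResidueField O)
      (M := KumG.LZ (GG M))) z).symm.trans h0
  obtain ⟨𝔑, h𝔑, hI𝔑⟩ := Ideal.exists_le_maximal I hI1
  haveI := h𝔑
  haveI : Module.Finite ℤ T := Fermat.Agent.S22.result M 2 ∅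
  have htf : ∀ (n : ℤ) (t : T), n ≠ 0 → (n : T) * t ∈ (⊥ : Ideal T) → t ∈ (⊥ : Ideal T) := by
    intro n t hn ht
    rw [Ideal.mem_bot] at ht ⊢
    rw [← zsmul_eq_mul] at ht
    apply Subtype.ext
    refine LinearMap.ext fun x => ?_
    have h1 := congrArg (fun u : T => (u : Module.End ℂ (CuspForm (CongruenceSubgroup.Gamma0 M) 2)) x)
      ht
    have h2 : ((n • t : T) : Module.End ℂ (CuspForm (CongruenceSubgroup.Gamma0 M) 2)) x =
        (n : ℂ) • ((t : Module.End ℂ (CuspForm (CongruenceSubgroup.Gamma0 M) 2)) x) := by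
      rw [Int.cast_smul_eq_zsmul]
      rfl
    have h3 : (n : ℂ) • ((t : Module.End ℂ (CuspForm (CongruenceSubgroup.Gamma0 M) 2)) x) = 0 :=
      h2.symm.trans h1
    exact (smul_eq_zero.1 h3).resolve_left (Int.cast_ne_zero.2 hn)
  obtain ⟨χ, 𝔐, -, h𝔐, hcomap⟩ := LevelRaise.exists_char_of_quot (⊥ : Ideal T) htf 𝔑 bot_le
  obtain ⟨g, hg, hgT, -⟩ := LevelRaise.exists_form_of_char (N := M)
    ((algebraMap (integralClosure ℤ ℂ) ℂ).comp χ)
  have hmem : ∀ t : T, t ∈ I → χ t ∈ 𝔐 := fun t ht => by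
    have h1 := hI𝔑 ht
    rw [← hcomap] at h1
    exact h1
  have hint : ∀ n : ℤ, ((HeckeHom.actL M ∅ (n : T)).baseChange (ResidueField O)) z =
      (n : ResidueField O) • z := by
    intro n
    rw [map_intCast]
    exact bc_int n z
  refine ⟨g, W, 𝔐, hg, hW, h𝔐, ?_, fun ℓ hℓ hg' hℓM hℓp => ?_⟩
  · have h1 := hmem ((P.p : ℤ) : T) (by
      rw [hI, hint]
      have h2 : (((P.p : ℕ) : ℤ) : ResidueField O) = 0 := by
        rw [Int.cast_natCast, CharP.cast_eq_zero]
      rw [h2, zero_smul]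
      rfl)
    rw [map_intCast, Int.cast_natCast] at h1
    exact h1
  · refine ⟨χ (CuspForm.heckeAlgebra.T hℓ hℓM (Set.notMem_empty _)), (hgT ℓ hℓ hℓM).symm, ?_⟩
    obtain ⟨A, hA⟩ := exists_liesOverPrime (AlgebraicClosure ℚ) hℓ
    obtain ⟨Φ, hΦ⟩ := exists_isFrobeniusAt A hℓ hA
    have h1 := hz ℓ hℓ hℓM hℓp A hA Φ hΦ
    rw [(frob h κ hW hℓ hg' hℓp hA hΦ).1] at h1
    have h2 := hmem (CuspForm.heckeAlgebra.T hℓ hℓM (Set.notMem_empty _) -
      ((W.apOfModel ℓ : ℤ) : T)) (by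
      rw [hI, map_sub, LinearMap.baseChange_sub, LinearMap.sub_apply, hint]
      have h3 : HeckeHom.actL M ∅ (CuspForm.heckeAlgebra.T hℓ hℓM (Set.notMem_empty _)) =
          TG hℓ hℓM := by
        refine LinearMap.ext fun x => Subtype.ext ?_
        rw [HeckeHom.actL_T, ALCoh.opT_eq]
        rfl
      have h4 : ((HeckeHom.actL M ∅ (CuspForm.heckeAlgebra.T hℓ hℓM
          (Set.notMem_empty _))).baseChange (ResidueField O)) z =
          κ (W.apOfModel ℓ : ℤ) • z := by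
        rw [h3]
        exact h1
      rw [h4, map_intCast, sub_self])
    rw [map_sub, map_intCast] at h2
    exact h2

include hpO ι h hW in
/-- **(M2)**, contrapositive form -/
theorem not_occ_of_not_modular {M : ℕ} [NeZero M] {S : Set ℕ} (hS : S.Finite)
    (hMS : ∀ l, l.Prime → l ∣ M → l ∈ S) (hpS : P.p ∈ S)
    (hgood : ∀ l, l.Prime → l ∉ S → W.IsGoodPrimeFor l) (hno : ¬ P.ModularRepOfLevel M) :
    ∃ s : TS O S, phiG O hMS s = 0 ∧ thS (fun l => κ (W.apOfModel l : ℤ)) S s ≠ 0 := by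
  by_contra hcon
  push Not at hcon
  exact hno (modular_of_occ hpO ι κ h hW hS hMS hpS hgood hcon)

end two

end

end Fermat.Agent.MD
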