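import Fermat.Agent.Sel.TWHyp
import Fermat.Agent.Cheb.Places

/-!
# The auxiliary prime
-/

set_option autoImplicit false
set_option linter.unusedSectionVars false
set_option linter.style.haveILetI false

noncomputable section

namespace Fermat.Agent.MD

open Matrix Module Fermat.Agent.GalRep Fermat.Agent.EC Fermat.Agent.Sel

local notation "Ω" => AlgebraicClosure ℚ

local notation "𝒢" => (AlgebraicClosure ℚ) ≃ₐ[ℚ] (AlgebraicClosure ℚ)

theorem det_sub_smul {F : Type} [CommRing F] (M : M2 F) (c : F) :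
    (M - c • 1).det = M.det - c * M.trace + c ^ 2 := by
  rw [Matrix.det_fin_two, Matrix.det_fin_two, Matrix.trace_fin_two]
  simp
  ring

theorem tr_sq_pow {F : Type} [Field F] (M : M2 F) (h : M.trace ^ 2 = (M.det + 1) ^ 2) (n : ℕ) :
    (M ^ n).trace ^ 2 = (M.det ^ n + 1) ^ 2 := by
  obtain ⟨ε, hε, h1⟩ : ∃ ε : F, ε ^ 2 = 1 ∧ M.trace = ε * (M.det + 1) := by
    rcases sq_eq_sq_iff_eq_or_eq_neg.1 h with h1 | h1
    · exact ⟨1, one_pow 2, by rw [h1, one_mul]⟩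
    · exact ⟨-1, by norm_num, by rw [h1, neg_one_mul]⟩
  have h2 : (M - ε • 1).det = 0 := by
    rw [det_sub_smul, h1]
    linear_combination (-M.det) * hε
  have h3 : (M - ε • 1) ∣ (M ^ n - (ε • 1 : M2 F) ^ n) := by
    have hc : Commute M (ε • 1 : M2 F) := (Commute.one_right M).smul_right ε
    exact ⟨_, (hc.mul_geom_sum₂ n).symm⟩
  have h4 : (M ^ n - (ε ^ n) • (1 : M2 F)).det = 0 := by
    obtain ⟨N, hN⟩ := h3
    rw [smul_pow, one_pow] at hN
    rw [hN, Matrix.det_mul, h2, zero_mul]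
  rw [det_sub_smul, Matrix.det_pow] at h4
  have h5 : (ε ^ n) ^ 2 = 1 := by rw [← pow_mul, mul_comm, pow_mul, hε, one_pow]
  rw [h5] at h4
  have h6 : ε ^ n * (M ^ n).trace = M.det ^ n + 1 := by linear_combination -h4
  rw [← h6, mul_pow, h5, one_mul]

theorem sq12 : ∀ a b : ZMod 12, a * b = 1 → a * a = 1 := by decide

theorem cyc_mul_inv (n : ℕ) [NeZero n] (σ : 𝒢) : cyc n σ * cyc n σ⁻¹ = 1 := by
  rw [← map_mul, mul_inv_cancel, map_one]

variable {P : FreyPackage} [hp : Fact P.p.Prime] {ρ : 𝒢 →* M2 (ZMod P.p)} (h : Res0 P ρ)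

include h

theorem two_ne : (2 : ZMod P.p) ≠ 0 := by
  intro h2
  have : ((2 : ℕ) : ZMod P.p) = 0 := by exact_mod_cast h2
  rw [ZMod.natCast_eq_zero_iff, Nat.prime_dvd_prime_iff_eq hp.out Nat.prime_two] at this
  exact ne2 this

/-- the image of the kernel of the cyclotomic character modulo `12` contains `SL₂` -/
theorem exists_sl2 (X : M2 (ZMod P.p)) (hX : X.det = 1) : ∃ σ : 𝒢, cyc 12 σ = 1 ∧ ρ σ = X := by
  let S : Submonoid (M2 (ZMod P.p)) :=
    { carrier := {X | ∃ σ, cyc 12 σ = 1 ∧ ρ σ = X}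
      one_mem' := ⟨1, map_one _, map_one _⟩
      mul_mem' := by
        rintro _ _ ⟨σ, h1, rfl⟩ ⟨τ, h2, rfl⟩
        exact ⟨σ * τ, by rw [map_mul, h1, h2, one_mul], map_mul _ _ _⟩ }
  have h2 := two_ne h
  refine mem_of_elem S (fun t => ?_) (fun t => ?_) hX
  · obtain ⟨σ, -, hσ⟩ := h.exists_ut (t / 2)
    refine ⟨σ * σ, ?_, ?_⟩
    · rw [map_mul]
      exact sq12 _ _ (cyc_mul_inv 12 σ)
    · rw [map_mul, hσ, ← ut_add]
      congr 1
      field_simp
      ring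
  · obtain ⟨σ, -, hσ⟩ := h.exists_lo (t / 2)
    refine ⟨σ * σ, ?_, ?_⟩
    · rw [map_mul]
      exact sq12 _ _ (cyc_mul_inv 12 σ)
    · rw [map_mul, hσ, ← lo_add]
      congr 1
      field_simp
      ring

theorem exists_g : ∃ g : 𝒢, cyc 12 g = 11 ∧ ρ g = !![0, -2; 1, 0] := by
  have hp5 := P.hp5
  have hc3 : Nat.Coprime 3 P.p := (Nat.coprime_primes Nat.prime_three hp.out).2 (by omega)
  have hc2 : Nat.Coprime 2 P.p := (Nat.coprime_primes Nat.prime_two hp.out).2 (by omega)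
  have hc : Nat.Coprime 12 P.p := by
    have : (12 : ℕ) = 2 * 2 * 3 := by norm_num
    rw [this]
    exact Nat.Coprime.mul_left (Nat.Coprime.mul_left hc2 hc2) hc3
  obtain ⟨a, ha1, ha2⟩ := Nat.chineseRemainder hc 11 2
  haveI : NeZero (12 * P.p) := ⟨mul_ne_zero (by norm_num) hp.out.ne_zero⟩
  have ha12 : a.Coprime 12 := by
    have h1 : Nat.gcd a 12 = Nat.gcd 11 12 := ha1.gcd_eq
    rw [Nat.Coprime, h1]
    decide
  have hap : a.Coprime P.p := by
    have h1 : Nat.gcd a P.p = Nat.gcd 2 P.p := ha2.gcd_eq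
    rw [Nat.Coprime, h1]
    exact hc2
  obtain ⟨σ₀, hσ₀⟩ := cyc_surj (12 * P.p) a (Nat.Coprime.mul_right ha12 hap)
  have h12 : cyc 12 σ₀ = 11 := by
    rw [← castHom_cyc (m := 12) (n := 12 * P.p) (Nat.dvd_mul_right _ _) σ₀, hσ₀, map_natCast]
    have := (ZMod.natCast_eq_natCast_iff a 11 12).2 ha1
    exact_mod_cast this
  have hpp : cyc P.p σ₀ = 2 := by
    rw [← castHom_cyc (m := P.p) (n := 12 * P.p) (Nat.dvd_mul_left _ _) σ₀, hσ₀, map_natCast]
    have := (ZMod.natCast_eq_natCast_iff a 2 P.p).2 ha2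
    exact_mod_cast this
  have hd : (ρ σ₀⁻¹).det * 2 = 1 := by
    rw [← hpp, ← h.det σ₀, ← Matrix.det_mul, rho_inv_mul, Matrix.det_one]
  obtain ⟨τ, hτ, hτ'⟩ := exists_sl2 h (ρ σ₀⁻¹ * !![0, -2; 1, 0]) (by
    have h9 : (!![0, -2; 1, 0] : M2 (ZMod P.p)).det = 2 := by simp [Matrix.det_fin_two]
    rw [Matrix.det_mul, h9, hd])
  refine ⟨σ₀ * τ, by rw [map_mul, h12, hτ, mul_one], ?_⟩
  rw [map_mul, hτ', ← mul_assoc, rho_mul_inv, one_mul]

/-- **(R')** the auxiliary prime -/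
theorem exists_rprime {k : Type} [Field k] (κ : ZMod P.p →+* k) {W : WeierstrassCurve ℤ}
    (hW : W.IsIntegralModelOf P.freyCurve) {S : Set ℕ} (hS : S.Finite) :
    ∃ r : ℕ, r.Prime ∧ r ∉ S ∧ r % 12 = 11 ∧ r ≠ P.p ∧ W.IsGoodPrimeFor r ∧ (r : k) ≠ 1 ∧
      ∀ A : ValuationSubring Ω, A.LiesOverPrime r → ∀ Φ : 𝒢, A.IsFrobeniusAt Φ r →
        (extk ρ κ Φ).trace ^ 2 ≠ ((r : k) + 1) ^ 2 := by
  obtain ⟨g, hg12, hg⟩ := exists_g h
  obtain ⟨F, hF, hFρ⟩ := h.lc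
  obtain ⟨L, hL, hL12⟩ := exists_level_cyc 12
  haveI : P.freyCurve.IsElliptic := ⟨isUnit_iff_ne_zero.2 (frey_Δ_ne P)⟩
  have hfin : (PRem.badS W 12 P.p).Finite := PRem.finite_badS (E := P.freyCurve) hW (by norm_num)
  obtain ⟨l, hl, hlS, A, hA, τ, hτ, n, m, h3, h4⟩ := Cheb.exists_isFrobeniusAt_pow_mem
    (S ∪ PRem.badS W 12 P.p) (hS.union hfin) (F ⊔ L).fixingSubgroup
    (IntermediateField.fixingSubgroup_isOpen (F ⊔ L)) g
  have hlS' : l ∉ S := fun h => hlS (Or.inl h)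
  have hlb : l ∉ PRem.badS W 12 P.p := fun h => hlS (Or.inr h)
  simp only [PRem.badS, Set.mem_ofPred_eq, not_or, not_not] at hlb
  have hgood := hlb.2
  have hl12 : ¬ l ∣ 12 := fun h => hlb.1 (dvd_mul_of_dvd_left h _)
  have hlp : l ≠ P.p := fun h => hlb.1 (h ▸ dvd_mul_left _ _)
  have hgτ : ∀ x ∈ F ⊔ L, (g⁻¹ * τ ^ n : 𝒢) x = x := fun x hx => h3 ⟨x, hx⟩
  have hτg : ∀ x ∈ F ⊔ L, (τ⁻¹ * g ^ m : 𝒢) x = x := fun x hx => h4 ⟨x, hx⟩
  have hρ1 : ρ τ ^ n = !![0, -2; 1, 0] := by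
    have h5 := hFρ _ fun x hx => hgτ x ((le_sup_left : F ≤ F ⊔ L) hx)
    have h6 : ρ (g * (g⁻¹ * τ ^ n)) = ρ g := by rw [map_mul, h5, mul_one]
    rw [mul_inv_cancel_left, map_pow, hg] at h6
    exact h6
  have hc1 : cyc 12 τ ^ n = 11 := by
    have h5 := hL12 _ fun x hx => hgτ x ((le_sup_right : L ≤ F ⊔ L) hx)
    have h6 : cyc 12 (g * (g⁻¹ * τ ^ n)) = cyc 12 g := by rw [map_mul, h5, mul_one]
    rw [mul_inv_cancel_left, map_pow, hg12] at h6
    exact h6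
  have hc2 : cyc 12 τ = 11 ^ m := by
    have h5 := hL12 _ fun x hx => hτg x ((le_sup_right : L ≤ F ⊔ L) hx)
    have h6 : cyc 12 (τ * (τ⁻¹ * g ^ m)) = cyc 12 τ := by rw [map_mul, h5, mul_one]
    rw [mul_inv_cancel_left, map_pow, hg12] at h6
    exact h6.symm
  have hc3 : cyc 12 τ = 11 := by
    have h11 : (11 : ZMod 12) * 11 = 1 := by decide
    rcases Nat.even_or_odd m with ⟨j, rfl⟩ | ⟨j, rfl⟩
    · rw [← two_mul, pow_mul, pow_two, h11, one_pow] at hc2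
      rw [hc2, one_pow] at hc1
      exact absurd hc1 (by decide)
    · rw [hc2, pow_succ, pow_mul, pow_two, h11, one_pow, one_mul]
  have hcop : Nat.Coprime l 12 := (Nat.Prime.coprime_iff_not_dvd hl).2 hl12
  have hmod : l % 12 = 11 := by
    have h5 := cyc_frobenius hcop hA hτ
    rw [hc3] at h5
    have h6 : ((11 : ℕ) : ZMod 12) = (l : ZMod 12) := by exact_mod_cast h5
    rw [ZMod.natCast_eq_natCast_iff] at h6
    have h7 : 11 % 12 = l % 12 := h6
    omega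
  have hdet : (ρ τ).det = (l : ZMod P.p) := by
    rw [h.det, cyc_frobenius ((Nat.coprime_primes hl hp.out).2 hlp) hA hτ]
  have hdX : (!![0, -2; 1, 0] : M2 (ZMod P.p)).det = 2 := by simp [Matrix.det_fin_two]
  have htX : (!![0, -2; 1, 0] : M2 (ZMod P.p)).trace = 0 := by simp [Matrix.trace_fin_two]
  have hdn : (ρ τ).det ^ n = 2 := by rw [← Matrix.det_pow, hρ1, hdX]
  refine ⟨l, hl, hlS', hmod, hlp, hgood, ?_, ?_⟩
  · intro h5
    have h6 : (l : ZMod P.p) = 1 := by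
      apply κ.injective
      rw [map_natCast, h5, map_one]
    rw [hdet, h6, one_pow] at hdn
    have h7 : (1 : ZMod P.p) = 0 := by linear_combination -hdn
    exact one_ne_zero h7
  · intro A' hA' Φ hΦ h5
    have h6 : (ρ Φ).trace = (ρ τ).trace := by
      rw [h.trace W hW l hl hgood hlp A' hA' Φ hΦ, h.trace W hW l hl hgood hlp A hA τ hτ]
    have h7 : (extk ρ κ Φ).trace = κ (ρ τ).trace := by
      rw [extk_apply, Matrix.trace_fin_two, ← h6, Matrix.trace_fin_two, map_add]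
      rfl
    have h8 : (ρ τ).trace ^ 2 = ((ρ τ).det + 1) ^ 2 := by
      apply κ.injective
      rw [map_pow, ← h7, h5, map_pow, map_add, map_one, hdet, map_natCast]
    have h9 := tr_sq_pow (ρ τ) h8 n
    rw [hρ1, htX, hdn] at h9
    have h10 : (3 : ZMod P.p) * 3 = 0 := by linear_combination -h9
    have h11 : (3 : ZMod P.p) = 0 := mul_self_eq_zero.1 h10
    have h12 : ((3 : ℕ) : ZMod P.p) = 0 := by exact_mod_cast h11
    rw [ZMod.natCast_eq_zero_iff] at h12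
    have h13 := Nat.le_of_dvd (by norm_num) h12
    have := P.hp5
    omega

end Fermat.Agent.MD
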