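import Fermat.Agent.E2Y.Main
import Fermat.Agent.TW.NoOcc2

/-!
# The geometric input at the Taylor–Wiles levels
-/

set_option autoImplicit false
set_option linter.unusedSectionVars false
set_option linter.style.haveILetI false

open IsLocalRing
open scoped TensorProduct
open Fermat.Agent.KumG Fermat.Agent.GalRep Fermat.Agent.Places Fermat.Agent.Cheb
open Fermat.Agent.AL Fermat.Agent.ALCoh Fermat.Agent.TW Fermat.Agent.SSH Fermat.Agent.E2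
open Fermat.Agent.E2K Fermat.Agent.Cov Fermat.Agent.Flat Fermat.Agent.RedMod Fermat.Agent.Sel

namespace Fermat.Agent.MD

noncomputable section

attribute [local instance] ThmC.algRK ThmC.isFractionRing_RK
attribute [local instance 10000] fastAlg

variable {O : Type} [CommRing O] [IsDomain O] [IsDiscreteValuationRing O]
  [IsAdicComplete (maximalIdeal O) O] [CharZero O] {p : ℕ} [hp : Fact p.Prime]
  (hpO : (p : O) ∈ maximalIdeal O) (hp2 : p ≠ 2) (ι : AlgebraicClosure ℚ →+* ℂ)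
  {t D : GQ → ResidueField O} (ht : IsPseudoRep t D) (htc : IsLocConst t)
  {S₀ : Set ℕ} (hS₀ : S₀.Finite) (hpS₀ : p ∈ S₀) {tl : ℕ → ResidueField O}
  (hfrob : ∀ l : ℕ, l.Prime → l ∉ S₀ → ∀ A : ValuationSubring (AlgebraicClosure ℚ),
    A.LiesOverPrime l → ∀ τ : GQ, A.IsFrobeniusAt τ l → t τ = tl l ∧ D τ = l)
  (hcom : ∃ σ τ, t (σ * τ * σ⁻¹ * τ⁻¹) ≠ 2)

include hpO hp2 ι ht htc hS₀ hpS₀ hfrob hcom in
/-- **(C')** The residual system does not occur at the levels `M * r' * ∏ v i`. -/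
theorem exists_no_all {M r' N₁ : ℕ} [NeZero M] [NeZero N₁]
    (hMS₀ : ∀ l, l.Prime → l ∣ M → l ∈ S₀)
    (hno : ∃ s : TS O S₀, phiG O hMS₀ s = 0 ∧ thS tl S₀ s ≠ 0)
    (hr' : r'.Prime) (hr'p : r' ≠ p) (hr'M : ¬ r' ∣ M) (hr'S₀ : r' ∈ S₀)
    {A' : ValuationSubring (AlgebraicClosure ℚ)} (hA' : A'.LiesOverPrime r') {Φ' : GQ}
    (hΦ' : A'.IsFrobeniusAt Φ' r') (htΦ' : t Φ' ^ 2 ≠ ((r' : ResidueField O) + 1) ^ 2)
    {r : ℕ} {v : Fin r → ℕ} {A : Fin r → ValuationSubring (AlgebraicClosure ℚ)}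
    {Φ : Fin r → GQ} (hinj : Function.Injective v) (hvS : ∀ i, v i ∉ S₀)
    (hv : ∀ i, TWp p t (v i) (A i) (Φ i)) (hN₁ : N₁ = M * r' * ∏ i, v i)
    {S : Set ℕ} (hSS : S = S₀ ∪ Set.range v) (hN₁S : ∀ l, l.Prime → l ∣ N₁ → l ∈ S)
    (H' : Subgroup (ZMod N₁)ˣ) [hH' : Fact ((-1 : (ZMod N₁)ˣ) ∈ H')]
    (hΔ : IsPGroup p (DG N₁ H')) :
    ∃ s : TS O S, phiH O H' hN₁S s = 0 ∧ thS tl S s ≠ 0 := by
  have h0 : M * r' ≠ 0 := mul_ne_zero (NeZero.ne M) hr'.ne_zero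
  haveI : NeZero (M * r') := ⟨h0⟩
  have hS₁ : ∀ l, l.Prime → l ∣ M * r' → l ∈ S₀ := by
    intro l hl h
    rcases (Nat.Prime.dvd_mul hl).1 h with h | h
    · exact hMS₀ l hl h
    · rw [(Nat.prime_dvd_prime_iff_eq hl hr').1 h]
      exact hr'S₀
  have hfrob' : ∀ l : IS S₀, ∀ A : ValuationSubring (AlgebraicClosure ℚ),
      A.LiesOverPrime (l : ℕ) → ∀ τ : GQ, A.IsFrobeniusAt τ (l : ℕ) →
        t τ = thS tl S₀ (MvPolynomial.X l) ∧ D τ = (l : ℕ) := by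
    intro l A hA τ hτ
    rw [thS_X]
    exact hfrob l l.2.1 l.2.2 A hA τ hτ
  have h1 := exists_no_mul hpO ι ht htc hS₀ hpS₀ hfrob' (M := M) (v := r') rfl hr' hr'p hr'M hMS₀
    hS₁ hA' hΦ' htΦ' hno
  exact exists_no_TW hpO hp2 ι ht htc hS₀ hpS₀ hfrob hcom hS₁ h1 hinj hvS hv hN₁ hSS hN₁S H' hΔ

include hp2 ht htc hS₀ hpS₀ hfrob hcom in
/-- **The geometric input at the Taylor–Wiles levels.** -/
theorem e2P_TWLev [Invertible (2 : O)] {g₀ k₀ : GQ} (hgk : HG.IrrAt t g₀ k₀)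
    {M r' q : ℕ} [NeZero M] (hq : q.Prime) (hqp : q ≠ p) (hqM : q ∣ M) (hq2 : ¬ q ^ 2 ∣ M)
    (hMS₀ : ∀ l, l.Prime → l ∣ M / q → l ∈ S₀) (hqS₀ : q ∈ S₀)
    (hno : haveI : NeZero (M / q) := ⟨(Nat.div_pos (Nat.le_of_dvd (NeZero.pos M) hqM) hq.pos).ne'⟩
      ∃ s : TS O S₀, phiG O hMS₀ s = 0 ∧ thS tl S₀ s ≠ 0)
    (hr' : r'.Prime) (hr'p : r' ≠ p) (hr'M : ¬ r' ∣ M) (hr'S₀ : r' ∈ S₀) (hr'12 : r' % 12 = 11)
    {A' : ValuationSubring (AlgebraicClosure ℚ)} (hA' : A'.LiesOverPrime r') {Φ' : GQ}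
    (hΦ' : A'.IsFrobeniusAt Φ' r') (htΦ' : t Φ' ^ 2 ≠ ((r' : ResidueField O) + 1) ^ 2)
    {r n B : ℕ} {v : Fin r → ℕ} {A : Fin r → ValuationSubring (AlgebraicClosure ℚ)}
    {Φ : Fin r → GQ} (hinj : Function.Injective v) (hvS : ∀ i, v i ∉ S₀)
    (hv : ∀ i, TWp p t (v i) (A i) (Φ i)) {N : ℕ} [NeZero N] (hN : N = M * r' * ∏ i, v i)
    {S : Set ℕ} (hSS : S = S₀ ∪ Set.range v) (hNS : ∀ l, l.Prime → l ∣ N → l ∈ S)
    (X : TWLev hpO ι hgk hNS (thS tl S) v A n B)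
    {Aq : ValuationSubring (AlgebraicClosure ℚ)} (hAq : Aq.LiesOverPrime q)
    {Φq : GQ} (hΦq : Aq.IsFrobeniusAt Φq q) :
    haveI := X.hH
    E2P p (psiY (HQ X.hvN X.c) hNS X.e) (rhoY hpO ι (HQ X.hvN X.c) hNS X.e) q Aq Φq := by
  haveI := X.hH
  haveI : Fact q.Prime := ⟨hq⟩
  have hM' : M = q * (M / q) := (Nat.mul_div_cancel' hqM).symm
  have hM'0 : M / q ≠ 0 := (Nat.div_pos (Nat.le_of_dvd (NeZero.pos M) hqM) hq.pos).ne'
  haveI : NeZero (M / q) := ⟨hM'0⟩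
  have hqM' : ¬ q ∣ M / q := by
    intro h
    apply hq2
    rw [pow_two, hM']
    exact mul_dvd_mul_left q h
  set N₁ := M / q * r' * ∏ i, v i with hN₁
  have hprod0 : ∏ i, v i ≠ 0 := Finset.prod_ne_zero_iff.2 fun i _ => (hv i).prime.ne_zero
  haveI : NeZero N₁ := ⟨mul_ne_zero (mul_ne_zero hM'0 hr'.ne_zero) hprod0⟩
  have hNq : N = q * N₁ := by
    rw [hN, hN₁]
    conv_lhs => rw [hM']
    ring
  have hN₁N : N₁ ∣ N := by rw [hNq]; exact dvd_mul_left _ _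
  have hqN₁ : ¬ q ∣ N₁ := by
    intro h
    rcases (Nat.Prime.dvd_mul hq).1 h with h | h
    · rcases (Nat.Prime.dvd_mul hq).1 h with h | h
      · exact hqM' h
      · exact hr'M ((Nat.prime_dvd_prime_iff_eq hq hr').1 h ▸ hqM)
    · obtain ⟨i, -, hi⟩ := (hq.prime.dvd_finset_prod_iff _).1 h
      have := (Nat.prime_dvd_prime_iff_eq hq (hv i).prime).1 hi
      exact hvS i (this ▸ hqS₀)
  have hN₁S : ∀ l, l.Prime → l ∣ N₁ → l ∈ S := fun l hl h => hNS l hl (h.trans hN₁N)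
  have hS₀S : S₀ ⊆ S := by rw [hSS]; exact Set.subset_union_left
  have hS : S.Finite := by rw [hSS]; exact hS₀.union (Set.finite_range v)
  -- the auxiliary prime
  obtain ⟨l, hl, hlS, hlN, hl1, B, hB, τ, hτ, htτ⟩ := exists_aux (k := ResidueField O) (p := p)
    (by rw [← map_natCast (residue O)]; exact (IsLocalRing.residue_eq_zero_iff _).2 hpO)
    ht htc (S₀ := S₀) (fun l hl hlS A hA τ hτ => (hfrob l hl hlS A hA τ hτ).2) hcom N hS hS₀S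
  have hi : thS tl S (MvPolynomial.X ⟨l, hl, hlS⟩) ≠ (l : ResidueField O) + 1 := by
    rw [thS_X]
    change tl l ≠ (l : ResidueField O) + 1
    rw [hl1, ← (hfrob l hl (fun h => hlS (hS₀S h)) B hB τ hτ).1]
    intro h
    apply htτ
    rw [h]
    norm_num
  exact E2Y.e2P_of hpO ι hNq hN₁N (ker_le_HQ X.hvN X.c hN₁N fun i => by
      rw [hN₁]
      exact (Finset.dvd_prod_of_mem v (Finset.mem_univ i)).trans (dvd_mul_left _ _)) hNS hN₁S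
    (fun x hx => (mul_eq_zero.1 hx).resolve_left (Nat.cast_ne_zero.2 hp.out.ne_zero)) hAq hqN₁
    hr' hr'12 (by
      rw [hN₁]
      exact (dvd_mul_left _ _).trans (dvd_mul_right _ _)) hΦq hqp hp2 X.hΔ
    X.heH
    (fun H' _ hΔ' => exists_no_all hpO hp2 ι ht htc hS₀ hpS₀ hfrob hcom hMS₀ hno hr' hr'p
      (fun h => hr'M (h.trans (Nat.div_dvd_of_dvd hqM))) hr'S₀ hA' hΦ' htΦ' hinj hvS hv hN₁ hSS
      hN₁S H' hΔ') hl hlS hi

end

end Fermat.Agent.MD
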