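import Fermat.Agent.Sel.TWHyp
import Fermat.Agent.GalRep.S31Cond
import Fermat.Agent.LevelRaise.AuxPrime

/-!
# The residual pseudo-representation of the Frey curve
-/

set_option autoImplicit false
set_option linter.unusedSectionVars false
set_option linter.style.haveILetI false

noncomputable section

namespace Fermat.Agent.MD

open Matrix Module Fermat.Agent.GalRep Fermat.Agent.Sel

local notation "Ω" => AlgebraicClosure ℚ

local notation "𝒢" => (AlgebraicClosure ℚ) ≃ₐ[ℚ] (AlgebraicClosure ℚ)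

section

variable {P : FreyPackage} [hp : Fact P.p.Prime] {ρ : 𝒢 →* M2 (ZMod P.p)} (h : Res0 P ρ)
  {k : Type} [Field k] (κ : ZMod P.p →+* k)

theorem extk_trace (σ : 𝒢) : (extk ρ κ σ).trace = κ (ρ σ).trace := by
  rw [extk_apply, Matrix.trace_fin_two, Matrix.trace_fin_two, map_add, Matrix.map_apply,
    Matrix.map_apply]

/-- the residual pseudo-representation -/
theorem isPseudoRep (ρ : 𝒢 →* M2 (ZMod P.p)) :
    IsPseudoRep (fun σ => (extk ρ κ σ).trace) (fun σ => (extk ρ κ σ).det) :=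
  isPseudoRep_of_matrix (extk ρ κ)

include h in
theorem isLocConst_extk : IsLocConst (extk ρ κ) := by
  obtain ⟨F, hF, h1⟩ := h.hlc κ
  exact ⟨F, hF, fun σ hσ g => by rw [map_mul, h1 σ hσ, mul_one]⟩

include h in
theorem isLocConst_tr : IsLocConst (fun σ => (extk ρ κ σ).trace) :=
  (isLocConst_extk h κ).comp fun X => X.trace

include h in
/-- traces and determinants of Frobenius -/
theorem frob {W : WeierstrassCurve ℤ} (hW : W.IsIntegralModelOf P.freyCurve) {l : ℕ}
    (hl : l.Prime) (hg : W.IsGoodPrimeFor l) (hlp : l ≠ P.p) {A : ValuationSubring Ω}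
    (hA : A.LiesOverPrime l) {τ : 𝒢} (hτ : A.IsFrobeniusAt τ l) :
    (extk ρ κ τ).trace = κ (W.apOfModel l : ℤ) ∧ (extk ρ κ τ).det = (l : k) := by
  refine ⟨by rw [extk_trace, h.trace W hW l hl hg hlp A hA τ hτ], ?_⟩
  rw [extk_det, h.det, cyc_frobenius ((Nat.coprime_primes hl hp.out).2 hlp) hA hτ, map_natCast]

theorem Δ_ne (P : FreyPackage) {W : WeierstrassCurve ℤ} (hW : W.IsIntegralModelOf P.freyCurve) :
    W.Δ ≠ 0 := by
  haveI : P.freyCurve.IsElliptic := ⟨isUnit_iff_ne_zero.2 (Fermat.Agent.EC.frey_Δ_ne P)⟩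
  exact Fermat.Agent.PRem.Δ_ne_zero hW

/-- the exceptional set -/
def S0 (P : FreyPackage) (W : WeierstrassCurve ℤ) (F : Finset ℕ) : Set ℕ :=
  (F : Set ℕ) ∪ {2, P.p} ∪ {l | ¬ W.IsGoodPrimeFor l}

theorem S0_finite {W : WeierstrassCurve ℤ} (hW : W.IsIntegralModelOf P.freyCurve)
    (F : Finset ℕ) : (S0 P W F).Finite :=
  ((Finset.finite_toSet F).union (Set.toFinite _)).union (LevelRaise.good_finite (Δ_ne P hW))

theorem mem_S0 {W : WeierstrassCurve ℤ} {F : Finset ℕ} {l : ℕ} (hl : l ∈ F) : l ∈ S0 P W F :=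
  Or.inl (Or.inl hl)

theorem two_mem_S0 {W : WeierstrassCurve ℤ} {F : Finset ℕ} : 2 ∈ S0 P W F :=
  Or.inl (Or.inr (Or.inl rfl))

theorem p_mem_S0 {W : WeierstrassCurve ℤ} {F : Finset ℕ} : P.p ∈ S0 P W F :=
  Or.inl (Or.inr (Or.inr rfl))

theorem good_of_not_mem {W : WeierstrassCurve ℤ} {F : Finset ℕ} {l : ℕ} (hl : l ∉ S0 P W F) :
    W.IsGoodPrimeFor l := by
  by_contra hg
  exact hl (Or.inr hg)

end

end Fermat.Agent.MD
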